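import Mathlib

/-!
# Entire functions with zeros of high order at `1, ..., m`
-/

set_option autoImplicit false

open Finset Filter Topology

namespace Fermat.Agent.Cor.GS

theorem exists_factor_one {g : ℂ → ℂ} (hg : Differentiable ℂ g) {b : ℂ} {r : ℕ}
    (h : (r : ℕ∞) ≤ analyticOrderAt g b) :
    ∃ G : ℂ → ℂ, Differentiable ℂ G ∧ ∀ z, g z = (z - b) ^ r * G z := by
  classical
  obtain ⟨g₀, hg₀, hev⟩ := (natCast_le_analyticOrderAt (hg.analyticAt b)).mp h
  refine ⟨fun z => if z = b then g₀ b else g z / (z - b) ^ r, ?_, ?_⟩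
  · intro z
    by_cases hz : z = b
    · subst hz
      refine hg₀.differentiableAt.congr_of_eventuallyEq ?_
      filter_upwards [hev] with w hw
      by_cases hwb : w = z
      · simp [hwb]
      · rw [if_neg hwb, hw, smul_eq_mul, mul_div_cancel_left₀]
        exact pow_ne_zero _ (sub_ne_zero.mpr hwb)
    · have h1 : DifferentiableAt ℂ (fun w => g w / (w - b) ^ r) z :=
        (hg z).div ((differentiableAt_id.sub_const b).pow r) (pow_ne_zero _ (sub_ne_zero.mpr hz))
      refine h1.congr_of_eventuallyEq ?_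
      filter_upwards [isOpen_ne.mem_nhds hz] with w hw
      rw [if_neg hw]
  · intro z
    by_cases hz : z = b
    · subst hz
      have h1 := hev.self_of_nhds
      rw [smul_eq_mul] at h1
      show g z = (z - z) ^ r * (if z = z then g₀ z else g z / (z - z) ^ r)
      rw [if_pos rfl]
      exact h1
    · show g z = (z - b) ^ r * (if z = b then g₀ b else g z / (z - b) ^ r)
      rw [if_neg hz, mul_div_cancel₀]
      exact pow_ne_zero _ (sub_ne_zero.mpr hz)

theorem exists_factor {f : ℂ → ℂ} (hf : Differentiable ℂ f) {r : ℕ} (S : Finset ℕ)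
    (h : ∀ j ∈ S, (r : ℕ∞) ≤ analyticOrderAt f (j : ℂ)) :
    ∃ G : ℂ → ℂ, Differentiable ℂ G ∧ ∀ z, f z = (∏ j ∈ S, (z - j) ^ r) * G z := by
  classical
  induction S using Finset.induction_on with
  | empty => exact ⟨f, hf, fun z => by simp⟩
  | insert b S hb ih =>
    obtain ⟨G₁, hG₁, hfG⟩ := ih fun j hj => h j (mem_insert_of_mem hj)
    have h1 : (r : ℕ∞) ≤ analyticOrderAt G₁ (b : ℂ) := by
      have h2 := h b (mem_insert_self _ _)
      have h3 : f = (fun z => ∏ j ∈ S, (z - (j : ℂ)) ^ r) * G₁ := funext hfG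
      have hd : Differentiable ℂ fun z : ℂ => ∏ j ∈ S, (z - (j : ℂ)) ^ r := by
        fun_prop
      rw [h3, analyticOrderAt_mul (hd.analyticAt _) (hG₁.analyticAt _)] at h2
      have h4 : analyticOrderAt (fun z : ℂ => ∏ j ∈ S, (z - (j : ℂ)) ^ r) (b : ℂ) = 0 := by
        rw [(hd.analyticAt _).analyticOrderAt_eq_zero]
        rw [prod_ne_zero_iff]
        intro j hj
        refine pow_ne_zero _ (sub_ne_zero.mpr ?_)
        intro hbj
        apply hb
        have : b = j := by exact_mod_cast hbj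
        rw [this]
        exact hj
      rwa [h4, zero_add] at h2
    obtain ⟨G, hG, hG'⟩ := exists_factor_one hG₁ h1
    refine ⟨G, hG, fun z => ?_⟩
    rw [hfG, hG', prod_insert hb]
    ring

/-- **(A)** the analytic estimate -/
theorem norm_iteratedDeriv_le {f : ℂ → ℂ} (hf : Differentiable ℂ f) {m r : ℕ}
    (h0 : ∀ j ∈ Icc 1 m, ∀ k < r, iteratedDeriv k f (j : ℂ) = 0) {j₀ : ℕ}
    (hj₀ : j₀ ∈ Icc 1 m) {ρ M : ℝ} (hρ : (m : ℝ) + 1 ≤ ρ)
    (hM : ∀ z : ℂ, ‖z‖ = ρ → ‖f z‖ ≤ M) :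
    ‖iteratedDeriv r f (j₀ : ℂ)‖ ≤
      r.factorial * (M * ((m : ℝ) / (ρ - m)) ^ (m * r)) := by
  obtain ⟨G, hG, hfG⟩ := exists_factor hf (r := r) (Icc 1 m) fun j hj =>
    (natCast_le_analyticOrderAt_iff_iteratedDeriv_eq_zero (hf.analyticAt _)).mpr (h0 j hj)
  have hρm : 0 < ρ - m := by linarith
  have hρ0 : 0 < ρ := by
    have : (0 : ℝ) ≤ m := Nat.cast_nonneg m
    linarith
  have hcard : (Icc 1 m).card = m := by simp
  -- `G` on the circle
  have h1 : ∀ z : ℂ, ‖z‖ = ρ → ‖G z‖ ≤ M / (ρ - m) ^ (m * r) := by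
    intro z hz
    have h2 : (ρ - m) ^ (m * r) ≤ ‖∏ j ∈ Icc 1 m, (z - (j : ℂ)) ^ r‖ := by
      rw [norm_prod]
      have h3 : ∀ j ∈ Icc 1 m, (ρ - m) ^ r ≤ ‖(z - (j : ℂ)) ^ r‖ := by
        intro j hj
        rw [norm_pow]
        refine pow_le_pow_left₀ hρm.le ?_ _
        have h4 : ‖z‖ - ‖(j : ℂ)‖ ≤ ‖z - j‖ := norm_sub_norm_le _ _
        rw [hz, Complex.norm_natCast] at h4
        have h5 : (j : ℝ) ≤ m := by exact_mod_cast (mem_Icc.mp hj).2
        linarith
      calc (ρ - m) ^ (m * r) = ∏ _j ∈ Icc 1 m, (ρ - m) ^ r := by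
            rw [prod_const, hcard, ← pow_mul, mul_comm]
        _ ≤ _ := prod_le_prod (fun _ _ => by positivity) h3
    have h6 := hM z hz
    rw [hfG, norm_mul] at h6
    rw [le_div_iff₀ (by positivity), mul_comm]
    exact (mul_le_mul_of_nonneg_right h2 (norm_nonneg _)).trans h6
  -- the maximum principle
  have h2 : ∀ z : ℂ, ‖z‖ ≤ ρ → ‖G z‖ ≤ M / (ρ - m) ^ (m * r) := by
    intro z hz
    refine Complex.norm_le_of_forall_mem_frontier_norm_le (U := Metric.ball 0 ρ)
      Metric.isBounded_ball hG.diffContOnCl (fun w hw => ?_) ?_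
    · rw [frontier_ball _ hρ0.ne'] at hw
      exact h1 w (by simpa using hw)
    · rw [closure_ball _ hρ0.ne']
      simpa using hz
  have hj1 : (1 : ℝ) ≤ j₀ := by exact_mod_cast (mem_Icc.mp hj₀).1
  have hjm : (j₀ : ℝ) ≤ m := by exact_mod_cast (mem_Icc.mp hj₀).2
  -- Cauchy's estimate
  have h3 := Complex.norm_iteratedDeriv_le_of_forall_mem_sphere_norm_le (n := r) (c := (j₀ : ℂ))
    (R := 1) (C := M * ((m : ℝ) / (ρ - m)) ^ (m * r)) (f := f) one_pos
    hf.diffContOnCl (fun z hz => ?_)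
  · rw [one_pow, div_one] at h3
    exact h3
  · rw [mem_sphere_iff_norm] at hz
    have hz' : ‖z‖ ≤ ρ := by
      have h4 : ‖z‖ ≤ ‖z - j₀‖ + ‖(j₀ : ℂ)‖ := by
        have := norm_add_le (z - j₀) (j₀ : ℂ)
        rwa [sub_add_cancel] at this
      rw [hz, Complex.norm_natCast] at h4
      linarith
    have h4 : ‖∏ j ∈ Icc 1 m, (z - (j : ℂ)) ^ r‖ ≤ (m : ℝ) ^ (m * r) := by
      rw [norm_prod]
      calc ∏ j ∈ Icc 1 m, ‖(z - (j : ℂ)) ^ r‖ ≤ ∏ _j ∈ Icc 1 m, (m : ℝ) ^ r := by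
            refine prod_le_prod (fun _ _ => norm_nonneg _) fun j hj => ?_
            rw [norm_pow]
            refine pow_le_pow_left₀ (norm_nonneg _) ?_ _
            have hj1' : (1 : ℝ) ≤ j := by exact_mod_cast (mem_Icc.mp hj).1
            have hjm' : (j : ℝ) ≤ m := by exact_mod_cast (mem_Icc.mp hj).2
            have h5 : ‖z - (j : ℂ)‖ ≤ ‖z - j₀‖ + ‖(j₀ : ℂ) - j‖ := by
              have := norm_add_le (z - j₀) ((j₀ : ℂ) - j)
              rwa [sub_add_sub_cancel] at this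
            have h6 : ‖(j₀ : ℂ) - j‖ ≤ m - 1 := by
              have : ((j₀ : ℂ) - j) = (((j₀ : ℝ) - j : ℝ) : ℂ) := by push_cast; rfl
              rw [this, Complex.norm_real, Real.norm_eq_abs, abs_le]
              constructor <;> linarith
            rw [hz] at h5
            linarith
        _ = (m : ℝ) ^ (m * r) := by rw [prod_const, hcard, ← pow_mul, mul_comm]
    rw [hfG, norm_mul]
    calc ‖∏ j ∈ Icc 1 m, (z - (j : ℂ)) ^ r‖ * ‖G z‖ ≤
        (m : ℝ) ^ (m * r) * (M / (ρ - m) ^ (m * r)) :=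
          mul_le_mul h4 (h2 z hz') (norm_nonneg _) (by positivity)
      _ = M * ((m : ℝ) / (ρ - m)) ^ (m * r) := by
          rw [div_pow]
          ring

end Fermat.Agent.Cor.GS
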