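import Fermat.Agent.Corollaries.GS.Arith
import Fermat.Agent.Corollaries.GS.Schwarz

/-!
# The theorem of Gelfond and Schneider: the auxiliary function
-/

set_option autoImplicit false

open Finset NumberField

namespace Fermat.Agent.Cor.GS

/-- the derivatives of an exponential sum -/
theorem iteratedDeriv_expSum {ι : Type*} (s : Finset ι) (c w : ι → ℂ) (k : ℕ) (z : ℂ) :
    iteratedDeriv k (fun z => ∑ i ∈ s, c i * Complex.exp (w i * z)) z =
      ∑ i ∈ s, c i * w i ^ k * Complex.exp (w i * z) := by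
  induction k generalizing z with
  | zero => simp
  | succ k ih =>
    rw [iteratedDeriv_succ]
    have h1 : iteratedDeriv k (fun z => ∑ i ∈ s, c i * Complex.exp (w i * z)) =
        fun z => ∑ i ∈ s, c i * w i ^ k * Complex.exp (w i * z) := funext fun z => ih z
    rw [h1]
    have h2 : ∀ i ∈ s, HasDerivAt (fun z => c i * w i ^ k * Complex.exp (w i * z))
        (c i * w i ^ (k + 1) * Complex.exp (w i * z)) z := by
      intro i _
      have h3 : HasDerivAt (fun z => Complex.exp (w i * z)) (Complex.exp (w i * z) * w i) z := by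
        have h4 : HasDerivAt (fun z : ℂ => w i * z) (w i) z := by
          simpa using (hasDerivAt_id z).const_mul (w i)
        exact h4.cexp
      exact (h3.const_mul (c i * w i ^ k)).congr_deriv (by ring)
    exact (HasDerivAt.fun_sum h2).deriv

/-- a counterexample to the theorem of Gelfond and Schneider -/
structure Dat (K : Type) [Field K] [NumberField K] where
  σ : K →+* ℂ
  α : K
  β : K
  γ : K
  l : ℂ
  hl : l ≠ 0
  hα : σ α = Complex.exp l
  hγ : σ γ = Complex.exp (σ β * l)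
  hβ : ∀ r : ℚ, (algebraMap ℚ K r) ≠ β

variable {K : Type} [Field K] [NumberField K]

/-- common denominator -/
theorem exists_den (α β γ : K) : ∃ (d : ℤ) (a b g : 𝓞 K), d ≠ 0 ∧ algebraMap (𝓞 K) K a = d * α ∧
    algebraMap (𝓞 K) K b = d * β ∧ algebraMap (𝓞 K) K g = d * γ := by
  classical
  obtain ⟨d, hd, h⟩ := exists_integral_multiples ℤ ℚ ({α, β, γ} : Finset K)
  have h1 : IsIntegral ℤ (d • α) := h α (by simp)
  have h2 : IsIntegral ℤ (d • β) := h β (by simp)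
  have h3 : IsIntegral ℤ (d • γ) := h γ (by simp)
  refine ⟨d, ⟨_, h1⟩, ⟨_, h2⟩, ⟨_, h3⟩, hd, ?_, ?_, ?_⟩ <;>
  · rw [← zsmul_eq_mul]
    rfl

theorem house_nonneg' (x : K) : 0 ≤ house x := norm_nonneg _

theorem house_int_mul_le (d : ℤ) (x : K) : house ((d : K) * x) ≤ |(d : ℝ)| * house x := by
  refine (house_mul_le _ _).trans (le_of_eq ?_)
  rw [house_intCast]
  push_cast
  rfl

theorem house_pow_le_pow {x : K} {H : ℝ} (h : house x ≤ H) (k : ℕ) : house (x ^ k) ≤ H ^ k :=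
  (house_pow_le x k).trans (pow_le_pow_left₀ (house_nonneg' x) h k)

theorem house_mul_le_mul {x y : K} {X Y : ℝ} (hx : house x ≤ X) (hy : house y ≤ Y) :
    house (x * y) ≤ X * Y :=
  (house_mul_le x y).trans
    (mul_le_mul hx hy (house_nonneg' y) ((house_nonneg' x).trans hx))

/-- the entries of the linear system -/
noncomputable def ent (d : ℤ) (a₀ b₀ g₀ : 𝓞 K) (P k j a b : ℕ) : 𝓞 K :=
  ((d : 𝓞 K) * a + b * b₀) ^ k * ((d : 𝓞 K) ^ (P - a * j) * a₀ ^ (a * j)) *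
    ((d : 𝓞 K) ^ (P - b * j) * g₀ ^ (b * j))

omit [NumberField K] in
theorem coe_ent {d : ℤ} {a₀ b₀ g₀ : 𝓞 K} {α β γ : K} (ha : algebraMap (𝓞 K) K a₀ = d * α)
    (hb : algebraMap (𝓞 K) K b₀ = d * β) (hg : algebraMap (𝓞 K) K g₀ = d * γ) {P k j a b : ℕ}
    (h1 : a * j ≤ P) (h2 : b * j ≤ P) : algebraMap (𝓞 K) K (ent d a₀ b₀ g₀ P k j a b) =
      (d : K) ^ (k + 2 * P) * ((a + b * β) ^ k * α ^ (a * j) * γ ^ (b * j)) := by
  unfold ent
  simp only [map_mul, map_add, map_pow, map_intCast, map_natCast]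
  rw [ha, hb, hg, mul_pow, mul_pow]
  have e1 : (d : K) ^ (P - a * j) * (d : K) ^ (a * j) = (d : K) ^ P := by
    rw [← pow_add, Nat.sub_add_cancel h1]
  have e2 : (d : K) ^ (P - b * j) * (d : K) ^ (b * j) = (d : K) ^ P := by
    rw [← pow_add, Nat.sub_add_cancel h2]
  have e3 : ((d : K) * a + b * (d * β)) ^ k = (d : K) ^ k * (a + b * β) ^ k := by
    rw [← mul_pow]
    ring
  rw [e3, pow_add, two_mul, pow_add]
  calc (d : K) ^ k * (a + b * β) ^ k * ((d : K) ^ (P - a * j) * ((d : K) ^ (a * j) * α ^ (a * j))) *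
      ((d : K) ^ (P - b * j) * ((d : K) ^ (b * j) * γ ^ (b * j))) =
      (d : K) ^ k * (a + b * β) ^ k * (((d : K) ^ (P - a * j) * (d : K) ^ (a * j)) * α ^ (a * j)) *
      (((d : K) ^ (P - b * j) * (d : K) ^ (b * j)) * γ ^ (b * j)) := by ring
    _ = _ := by
      rw [e1, e2]
      ring

theorem house_ent_le {d : ℤ} {a₀ b₀ g₀ : 𝓞 K} {H : ℝ} (hd : |(d : ℝ)| ≤ H)
    (ha : house (algebraMap (𝓞 K) K a₀) ≤ H) (hb : house (algebraMap (𝓞 K) K b₀) ≤ H)
    (hg : house (algebraMap (𝓞 K) K g₀) ≤ H) {P k j a b q : ℕ} (haq : a < q) (hbq : b < q)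
    (h1 : a * j ≤ P) (h2 : b * j ≤ P) :
    house (algebraMap (𝓞 K) K (ent d a₀ b₀ g₀ P k j a b)) ≤
      (2 * q * H) ^ k * (H ^ P * H ^ P) := by
  have hH : 0 ≤ H := (abs_nonneg _).trans hd
  have hd' : house ((d : K)) ≤ H := by
    rw [house_intCast]
    push_cast
    exact hd
  have e1 : house (((d : K) ^ (P - a * j) * algebraMap (𝓞 K) K a₀ ^ (a * j))) ≤ H ^ P := by
    have := house_mul_le_mul (house_pow_le_pow hd' (P - a * j)) (house_pow_le_pow ha (a * j))
    rwa [← pow_add, Nat.sub_add_cancel h1] at this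
  have e2 : house (((d : K) ^ (P - b * j) * algebraMap (𝓞 K) K g₀ ^ (b * j))) ≤ H ^ P := by
    have := house_mul_le_mul (house_pow_le_pow hd' (P - b * j)) (house_pow_le_pow hg (b * j))
    rwa [← pow_add, Nat.sub_add_cancel h2] at this
  have e3 : house ((d : K) * a + b * algebraMap (𝓞 K) K b₀) ≤ 2 * q * H := by
    have h3 : house ((d : K) * a) ≤ q * H := by
      rw [mul_comm, house_nat_mul]
      exact mul_le_mul (by exact_mod_cast haq.le) hd' (house_nonneg' _) (Nat.cast_nonneg _)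
    have h4 : house ((b : K) * algebraMap (𝓞 K) K b₀) ≤ q * H := by
      rw [house_nat_mul]
      exact mul_le_mul (by exact_mod_cast hbq.le) hb (house_nonneg' _) (Nat.cast_nonneg _)
    refine (house_add_le _ _).trans ?_
    linarith
  unfold ent
  simp only [map_mul, map_add, map_pow, map_intCast, map_natCast]
  rw [mul_assoc]
  exact house_mul_le_mul (house_pow_le_pow e3 k) (house_mul_le_mul e1 e2)

theorem one_le_norm_mul {x : 𝓞 K} (hx : x ≠ 0) (σ : K →+* ℂ) :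
    1 ≤ ‖σ (algebraMap (𝓞 K) K x)‖ *
      house (algebraMap (𝓞 K) K x) ^ (Module.finrank ℚ K - 1) := by
  refine le_trans ?_ (norm_norm_le_norm_mul_house_pow (algebraMap (𝓞 K) K x) σ)
  have h1 : Algebra.norm ℚ (algebraMap (𝓞 K) K x) = ((Algebra.norm ℤ x : ℤ) : ℚ) :=
    (Algebra.coe_norm_int x).symm
  rw [h1]
  have h2 : Algebra.norm ℤ x ≠ 0 := Algebra.norm_ne_zero_iff.mpr hx
  have h3 : (1 : ℝ) ≤ |((Algebra.norm ℤ x : ℤ) : ℝ)| := by exact_mod_cast Int.one_le_abs h2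
  refine h3.trans (le_of_eq ?_)
  rw [← Rat.norm_cast_real, Real.norm_eq_abs]
  push_cast
  rfl

theorem house_sum_le {ι : Type*} (s : Finset ι) (f : ι → K) {X : ℝ} (h : ∀ i ∈ s, house (f i) ≤ X) :
    house (∑ i ∈ s, f i) ≤ s.card * X := by
  refine (house_sum_le_sum_house s f).trans ?_
  rw [← nsmul_eq_mul]
  exact sum_le_card_nsmul _ _ _ h

theorem Dat.injective (D : Dat K) (q : ℕ) :
    Function.Injective fun x : Fin q × Fin q => (((x.1 : ℕ) : K) + ((x.2 : ℕ) : K) * D.β) := by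
  rintro ⟨a, b⟩ ⟨a', b'⟩ h
  have h1 : (((a : ℕ) : K) + ((b : ℕ) : K) * D.β) = (((a' : ℕ) : K) + ((b' : ℕ) : K) * D.β) := h
  by_cases hb : (b : ℕ) = b'
  · rw [hb] at h1
    have h2 : ((a : ℕ) : K) = ((a' : ℕ) : K) := by linear_combination h1
    have h3 : (a : ℕ) = a' := by exact_mod_cast h2
    exact Prod.ext (Fin.ext h3) (Fin.ext hb)
  · exfalso
    have hne : ((b : ℕ) : K) - ((b' : ℕ) : K) ≠ 0 := by
      rw [sub_ne_zero]
      exact_mod_cast hb
    apply D.hβ ((((a' : ℕ) : ℚ) - ((a : ℕ) : ℚ)) / (((b : ℕ) : ℚ) - ((b' : ℕ) : ℚ)))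
    rw [map_div₀, map_sub, map_sub, map_natCast, map_natCast, map_natCast, map_natCast,
      div_eq_iff hne]
    linear_combination -h1

theorem Dat.α_ne_zero (D : Dat K) : D.α ≠ 0 := by
  intro h
  have := D.hα
  rw [h, map_zero] at this
  exact Complex.exp_ne_zero _ this.symm

theorem Dat.γ_ne_zero (D : Dat K) : D.γ ≠ 0 := by
  intro h
  have := D.hγ
  rw [h, map_zero] at this
  exact Complex.exp_ne_zero _ this.symm

/-- the bound for the coefficients -/
noncomputable def bB (C H : ℝ) (m n q : ℕ) : ℝ :=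
  C ^ 2 * (2 * ((n * m : ℕ) : ℝ)) * ((2 * q * H) ^ n * (H ^ (m * q) * H ^ (m * q)))

/-- the main inequality -/
theorem Dat.exists_ineq (D : Dat K) : ∃ C H Λ L : ℝ, 1 ≤ C ∧ 1 ≤ H ∧ 1 ≤ Λ ∧ 0 ≤ L ∧
    ∀ m n q : ℕ, 0 < m → 0 < n → q ^ 2 = 2 * (n * m) → ∃ r : ℕ, n ≤ r ∧
      1 ≤ (H ^ (r + 2 * (m * q)) * (Λ ^ r * (r.factorial *
        (((q : ℝ) ^ 2 * bB C H m n q * Real.exp (L * (m * q + m * r))) *
          ((q : ℝ) / r) ^ (m * r))))) *
        ((q : ℝ) ^ 2 * (((2 * q * H) ^ r * (H ^ (m * q) * H ^ (m * q))) * bB C H m n q)) ^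
          (Module.finrank ℚ K - 1) := by
  classical
  obtain ⟨C, hC1, hC⟩ := exists_siegel K
  obtain ⟨d, a₀, b₀, g₀, hd, ha, hb, hg⟩ := exists_den D.α D.β D.γ
  set H : ℝ := 1 + |(d : ℝ)| + house (algebraMap (𝓞 K) K a₀) + house (algebraMap (𝓞 K) K b₀) +
    house (algebraMap (𝓞 K) K g₀) with hH
  have n1 := house_nonneg' (algebraMap (𝓞 K) K a₀)
  have n2 := house_nonneg' (algebraMap (𝓞 K) K b₀)
  have n3 := house_nonneg' (algebraMap (𝓞 K) K g₀)
  have n4 := abs_nonneg (d : ℝ)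
  have hH1 : 1 ≤ H := by linarith
  have hHd : |(d : ℝ)| ≤ H := by linarith
  have hHa : house (algebraMap (𝓞 K) K a₀) ≤ H := by linarith
  have hHb : house (algebraMap (𝓞 K) K b₀) ≤ H := by linarith
  have hHg : house (algebraMap (𝓞 K) K g₀) ≤ H := by linarith
  refine ⟨C, H, max 1 ‖D.l‖⁻¹, (1 + ‖D.σ D.β‖) * ‖D.l‖, hC1, hH1, le_max_left _ _,
    by positivity, ?_⟩
  intro m n q hm hn hq
  have hnm : 0 < n * m := Nat.mul_pos hn hm
  have hq2 : 2 ≤ q := by
    by_contra hcon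
    have : q = 0 ∨ q = 1 := by omega
    rcases this with h | h
    · rw [h] at hq
      omega
    · rw [h] at hq
      omega
  have hqR : (2 : ℝ) ≤ q := by exact_mod_cast hq2
  have hqH : (1 : ℝ) ≤ 2 * q * H := by nlinarith
  set A₀ : ℝ := (2 * q * H) ^ n * (H ^ (m * q) * H ^ (m * q)) with hA₀
  have hA₀1 : 1 ≤ A₀ := by
    have h1 : 1 ≤ (2 * q * H) ^ n := one_le_pow₀ hqH
    have h2 : 1 ≤ H ^ (m * q) := one_le_pow₀ hH1
    exact one_le_mul_of_one_le_of_one_le h1 (one_le_mul_of_one_le_of_one_le h2 h2)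
  have hle : ∀ {a j : ℕ}, a < q → j ∈ Icc 1 m → a * j ≤ m * q := by
    intro a j h1 h2
    rw [mul_comm m q]
    exact Nat.mul_le_mul h1.le (mem_Icc.mp h2).2
  -- Siegel's lemma
  have hj1 : ∀ j : Fin m, (j : ℕ) + 1 ∈ Icc 1 m := fun j => by
    rw [mem_Icc]
    have := j.isLt
    omega
  obtain ⟨ξ, hξ0, hξ, hξb⟩ := hC (Fin n × Fin m) (Fin q × Fin q) (n * m) hnm (by simp)
    (by simp only [Fintype.card_prod, Fintype.card_fin]; rw [← hq]; ring)
    (fun i x => ent d a₀ b₀ g₀ (m * q) i.1 (i.2 + 1) x.1 x.2) A₀ hA₀1 (by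
      intro i x
      refine (house_ent_le hHd hHa hHb hHg x.1.isLt x.2.isLt (hle x.1.isLt (hj1 _))
        (hle x.2.isLt (hj1 _))).trans ?_
      refine mul_le_mul_of_nonneg_right ?_ (by positivity)
      exact pow_le_pow_right₀ hqH i.1.isLt.le)
  have hξB : ∀ x, house (algebraMap (𝓞 K) K (ξ x)) ≤ bB C H m n q := hξb
  have hB0 : 0 ≤ bB C H m n q := by
    unfold bB
    positivity
  set P : ℕ → ℕ → K := fun k j => ∑ x : Fin q × Fin q, algebraMap (𝓞 K) K (ξ x) *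
    ((((x.1 : ℕ) : K) + ((x.2 : ℕ) : K) * D.β) ^ k * D.α ^ ((x.1 : ℕ) * j) *
      D.γ ^ ((x.2 : ℕ) * j)) with hP
  set Q : ℕ → ℕ → 𝓞 K := fun k j => ∑ x : Fin q × Fin q,
    ent d a₀ b₀ g₀ (m * q) k j x.1 x.2 * ξ x with hQ
  have hQP : ∀ k, ∀ j ∈ Icc 1 m, algebraMap (𝓞 K) K (Q k j) =
      (d : K) ^ (k + 2 * (m * q)) * P k j := by
    intro k j hj
    simp only [hQ, hP]
    rw [map_sum, mul_sum]
    refine sum_congr rfl fun x _ => ?_
    rw [map_mul, coe_ent ha hb hg (hle x.1.isLt hj) (hle x.2.isLt hj)]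
    ring
  have hdK : (d : K) ≠ 0 := Int.cast_ne_zero.mpr hd
  have hsmall : ∀ k < n, ∀ j ∈ Icc 1 m, P k j = 0 := by
    intro k hk j hj
    have h1 : Q k j = 0 := by
      have h2 := hξ (⟨k, hk⟩, ⟨j - 1, by have := mem_Icc.mp hj; omega⟩)
      simp only [hQ]
      have h3 : j - 1 + 1 = j := by
        have := mem_Icc.mp hj
        omega
      simp only [h3] at h2
      exact h2
    have h2 := hQP k j hj
    rw [h1, map_zero] at h2
    rcases mul_eq_zero.mp h2.symm with h3 | h3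
    · exact absurd h3 (pow_ne_zero _ hdK)
    · exact h3
  -- non-vanishing
  have hex : ∃ k, ∃ j ∈ Icc 1 m, P k j ≠ 0 := by
    by_contra hcon
    push Not at hcon
    apply hξ0
    funext x
    have h1 := eq_zero_of_sum_pow (D.injective q)
      (c := fun x => algebraMap (𝓞 K) K (ξ x) * (D.α ^ (x.1 : ℕ) * D.γ ^ (x.2 : ℕ)))
      (fun k => by
        have h2 := hcon k 1 (mem_Icc.mpr ⟨le_refl 1, hm⟩)
        rw [← h2]
        simp only [hP]
        refine sum_congr rfl fun x _ => ?_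
        rw [mul_one, mul_one]
        ring) x
    rcases mul_eq_zero.mp h1 with h2 | h2
    · exact (FaithfulSMul.algebraMap_injective (𝓞 K) K) (by rw [h2, Pi.zero_apply, map_zero])
    · exact absurd h2 (mul_ne_zero (pow_ne_zero _ D.α_ne_zero) (pow_ne_zero _ D.γ_ne_zero))
  obtain ⟨j₀, hj₀, hPr⟩ := Nat.find_spec hex
  set r := Nat.find hex with hr
  have hmin : ∀ k < r, ∀ j ∈ Icc 1 m, P k j = 0 := by
    intro k hk j hj
    by_contra hcon
    exact Nat.find_min hex hk ⟨j, hj, hcon⟩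
  have hnr : n ≤ r := by
    by_contra hcon
    push Not at hcon
    exact hPr (hsmall r hcon j₀ hj₀)
  refine ⟨r, hnr, ?_⟩
  have hr0 : 0 < r := lt_of_lt_of_le hn hnr
  -- the function
  set f : ℂ → ℂ := fun z => ∑ x ∈ (univ : Finset (Fin q × Fin q)),
    D.σ (algebraMap (𝓞 K) K (ξ x)) *
      Complex.exp (((((x.1 : ℕ) : ℂ) + ((x.2 : ℕ) : ℂ) * D.σ D.β) * D.l) * z) with hf
  have hfd : Differentiable ℂ f := by
    rw [hf]
    fun_prop
  have hder : ∀ k j : ℕ, iteratedDeriv k f (j : ℂ) = D.l ^ k * D.σ (P k j) := by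
    intro k j
    rw [hf, iteratedDeriv_expSum]
    simp only [hP, map_sum, map_mul, map_pow, map_add, map_natCast, mul_sum]
    refine sum_congr rfl fun x _ => ?_
    have h1 : Complex.exp (((((x.1 : ℕ) : ℂ) + ((x.2 : ℕ) : ℂ) * D.σ D.β) * D.l) * j) =
        D.σ D.α ^ ((x.1 : ℕ) * j) * D.σ D.γ ^ ((x.2 : ℕ) * j) := by
      rw [D.hα, D.hγ, ← Complex.exp_nat_mul, ← Complex.exp_nat_mul, ← Complex.exp_add]
      congr 1
      push_cast
      ring
    rw [h1, mul_pow]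
    ring
  have hrR : (0 : ℝ) < r := by exact_mod_cast hr0
  have hq0 : (0 : ℝ) < q := by linarith
  set ρ : ℝ := m + m * r / q with hρ
  have hρ1 : (m : ℝ) + 1 ≤ ρ := by
    rw [hρ, add_le_add_iff_left, le_div_iff₀ hq0, one_mul]
    have h1 : q * 2 ≤ q * q := Nat.mul_le_mul_left q hq2
    have h2 : q * q = 2 * (n * m) := by rw [← hq, pow_two]
    have h3 : n * m ≤ m * r := by
      rw [mul_comm n m]
      exact Nat.mul_le_mul_left m hnr
    have h4 : q ≤ m * r := by omega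
    exact_mod_cast h4
  set L : ℝ := (1 + ‖D.σ D.β‖) * ‖D.l‖ with hL
  have hL0 : 0 ≤ L := by positivity
  set M : ℝ := (q : ℝ) ^ 2 * bB C H m n q * Real.exp (L * (m * q + m * r)) with hM
  have hfM : ∀ z : ℂ, ‖z‖ = ρ → ‖f z‖ ≤ M := by
    intro z hz
    have hterm : ∀ x ∈ (univ : Finset (Fin q × Fin q)), ‖D.σ (algebraMap (𝓞 K) K (ξ x)) *
        Complex.exp (((((x.1 : ℕ) : ℂ) + ((x.2 : ℕ) : ℂ) * D.σ D.β) * D.l) * z)‖ ≤
        bB C H m n q * Real.exp (L * (m * q + m * r)) := by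
      intro x _
      rw [norm_mul, Complex.norm_exp]
      refine mul_le_mul ((norm_embedding_le_house _ _).trans (hξB x)) ?_ (Real.exp_pos _).le hB0
      rw [Real.exp_le_exp]
      refine (Complex.re_le_norm _).trans ?_
      rw [norm_mul, norm_mul, hz]
      have h1 : ‖((x.1 : ℕ) : ℂ) + ((x.2 : ℕ) : ℂ) * D.σ D.β‖ ≤ q * (1 + ‖D.σ D.β‖) := by
        refine (norm_add_le _ _).trans ?_
        rw [norm_mul, Complex.norm_natCast, Complex.norm_natCast]
        have h2 : ((x.1 : ℕ) : ℝ) ≤ q := by exact_mod_cast x.1.isLt.le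
        have h3 : ((x.2 : ℕ) : ℝ) ≤ q := by exact_mod_cast x.2.isLt.le
        have h4 := mul_le_mul_of_nonneg_right h3 (norm_nonneg (D.σ D.β))
        linarith
      calc ‖((x.1 : ℕ) : ℂ) + ((x.2 : ℕ) : ℂ) * D.σ D.β‖ * ‖D.l‖ * ρ ≤
          (q * (1 + ‖D.σ D.β‖)) * ‖D.l‖ * ρ := by
            have : 0 ≤ ρ := by
              have : (0 : ℝ) ≤ m := Nat.cast_nonneg m
              linarith
            gcongr
        _ = L * (m * q + m * r) := by
            rw [hL, hρ]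
            field_simp
    refine (norm_sum_le_of_le _ hterm).trans (le_of_eq ?_)
    rw [sum_const, nsmul_eq_mul, hM]
    simp only [card_univ, Fintype.card_prod, Fintype.card_fin]
    push_cast
    ring
  have hS := norm_iteratedDeriv_le hfd (r := r) (m := m)
    (fun j hj k hk => by rw [hder, hmin k hk j hj, map_zero, mul_zero]) hj₀ hρ1 hfM
  have hρm : (m : ℝ) / (ρ - m) = (q : ℝ) / r := by
    rw [hρ, add_sub_cancel_left]
    have : (m : ℝ) ≠ 0 := Nat.cast_ne_zero.mpr hm.ne'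
    field_simp
  rw [hρm, hder, norm_mul, norm_pow] at hS
  have hl0 : 0 < ‖D.l‖ := norm_pos_iff.mpr D.hl
  -- the norm
  have hQ0 : Q r j₀ ≠ 0 := by
    intro h1
    have h2 := hQP r j₀ hj₀
    rw [h1, map_zero] at h2
    exact mul_ne_zero (pow_ne_zero _ hdK) hPr h2.symm
  refine (one_le_norm_mul hQ0 D.σ).trans ?_
  have hM0 : 0 ≤ M := by positivity
  have e1 : ‖D.σ (algebraMap (𝓞 K) K (Q r j₀))‖ ≤ H ^ (r + 2 * (m * q)) *
      ((max 1 ‖D.l‖⁻¹) ^ r * (r.factorial * (M * ((q : ℝ) / r) ^ (m * r)))) := by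
    rw [hQP r j₀ hj₀, map_mul, map_pow, map_intCast, norm_mul, norm_pow, Complex.norm_intCast]
    refine mul_le_mul (pow_le_pow_left₀ n4 hHd _) ?_ (norm_nonneg _) (by positivity)
    have h1 : ‖D.σ (P r j₀)‖ = (‖D.l‖⁻¹) ^ r * (‖D.l‖ ^ r * ‖D.σ (P r j₀)‖) := by
      rw [← mul_assoc, ← mul_pow, inv_mul_cancel₀ hl0.ne', one_pow, one_mul]
    rw [h1]
    refine mul_le_mul (pow_le_pow_left₀ (by positivity) (le_max_right _ _) _) hS
      (by positivity) (by positivity)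
  have e2 : house (algebraMap (𝓞 K) K (Q r j₀)) ≤
      (q : ℝ) ^ 2 * (((2 * q * H) ^ r * (H ^ (m * q) * H ^ (m * q))) * bB C H m n q) := by
    have h1 : ∀ x ∈ (univ : Finset (Fin q × Fin q)), house (algebraMap (𝓞 K) K
        (ent d a₀ b₀ g₀ (m * q) r j₀ x.1 x.2 * ξ x)) ≤
        ((2 * q * H) ^ r * (H ^ (m * q) * H ^ (m * q))) * bB C H m n q := by
      intro x _
      rw [map_mul]
      exact house_mul_le_mul (house_ent_le hHd hHa hHb hHg x.1.isLt x.2.isLt
        (hle x.1.isLt hj₀) (hle x.2.isLt hj₀)) (hξB x)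
    have h2 := house_sum_le _ _ h1
    rw [← map_sum] at h2
    refine h2.trans (le_of_eq ?_)
    simp only [card_univ, Fintype.card_prod, Fintype.card_fin]
    push_cast
    ring
  refine mul_le_mul e1 (pow_le_pow_left₀ (house_nonneg' _) e2 _) (by
    exact pow_nonneg (house_nonneg' _) _) ?_
  have hΛ : 0 ≤ max 1 ‖D.l‖⁻¹ := zero_le_one.trans (le_max_left _ _)
  positivity

end Fermat.Agent.Cor.GS
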