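import Fermat.Agent.Corollaries.GS.Func

/-!
# The theorem of Gelfond and Schneider (Hilbert's seventh problem)
-/

set_option autoImplicit false

open Finset NumberField

namespace Fermat.Agent.Cor.GS

/-- the main inequality bounds `r` -/
theorem final_bound {C H Λ L : ℝ} (hC : 1 ≤ C) (hH : 1 ≤ H) (hΛ : 1 ≤ Λ) (hL : 0 ≤ L) (e m : ℕ)
    (hm : m = 2 * e + 4) : ∃ R : ℝ, ∀ n q r : ℕ, 0 < n → q ^ 2 = 2 * (n * m) → n ≤ r →
      1 ≤ (H ^ (r + 2 * (m * q)) * (Λ ^ r * (r.factorial *
        (((q : ℝ) ^ 2 * bB C H m n q * Real.exp (L * (m * q + m * r))) *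
          ((q : ℝ) / r) ^ (m * r))))) *
        ((q : ℝ) ^ 2 * (((2 * q * H) ^ r * (H ^ (m * q) * H ^ (m * q))) * bB C H m n q)) ^ e →
      (r : ℝ) ≤ R := by
  have hm0 : (0 : ℝ) < m := by
    rw [hm]
    positivity
  have hm1 : (1 : ℝ) ≤ m := by
    rw [hm]
    push_cast
    have : (0 : ℝ) ≤ e := Nat.cast_nonneg e
    linarith
  set w : ℝ := Real.sqrt (2 * m) with hw
  have hw2 : w ^ 2 = 2 * m := Real.sq_sqrt (by positivity)
  have hw0 : 0 < w := Real.sqrt_pos.mpr (by positivity)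
  set N : ℕ := 2 * m ^ 2 with hN
  set K₁ : ℝ := C ^ 2 * (4 * m) * ((2 * w * H) * (H ^ N * H ^ N)) with hK₁
  set K₂ : ℝ := H ^ (1 + 2 * N) * (Λ * (((4 * m) * K₁ * Real.exp (L * (N + m))) * w ^ m)) with hK₂
  set K₃ : ℝ := (4 * m) * (((2 * w * H) * (H ^ N * H ^ N)) * K₁) with hK₃
  have hH0 : 0 < H := by linarith
  have hC0 : 0 < C := by linarith
  have hΛ0 : 0 < Λ := by linarith
  have hK₁0 : 0 < K₁ := by positivity
  have hK₂0 : 0 < K₂ := by positivity
  have hK₃0 : 0 < K₃ := by positivity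
  refine ⟨(K₂ * K₃ ^ e) ^ 2, ?_⟩
  intro n q r hn hq hnr hmain
  have hr0 : 0 < r := lt_of_lt_of_le hn hnr
  have hrR : (0 : ℝ) < r := by exact_mod_cast hr0
  set s : ℝ := Real.sqrt r with hs
  have hs2 : s ^ 2 = r := Real.sq_sqrt hrR.le
  have hs0 : 0 < s := Real.sqrt_pos.mpr hrR
  have hqsq : (q : ℝ) ^ 2 = 2 * (n * m) := by exact_mod_cast hq
  have hnrR : (n : ℝ) ≤ r := by exact_mod_cast hnr
  have hqsq' : (q : ℝ) ^ 2 ≤ 2 * m * r := by
    rw [hqsq]
    nlinarith
  have hqn : 1 ≤ q := by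
    by_contra hcon
    have : q = 0 := by omega
    rw [this] at hq
    have : 0 < n * m := Nat.mul_pos hn (by omega)
    omega
  have hq1 : (1 : ℝ) ≤ q := by exact_mod_cast hqn
  -- (1)
  have b1 : (q : ℝ) ≤ w * s := by
    refine le_of_sq_le_sq ?_ (by positivity)
    rw [mul_pow, hw2, hs2]
    exact hqsq'
  -- (2)
  have b2 : m * q ≤ N * r := by
    have h1 : q * 1 ≤ q * q := Nat.mul_le_mul_left q hqn
    have h2 : q * q = 2 * (n * m) := by rw [← hq, pow_two]
    have h3 : n * m ≤ r * m := Nat.mul_le_mul_right m hnr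
    calc m * q ≤ m * (2 * (r * m)) := Nat.mul_le_mul_left m (by omega)
      _ = N * r := by
          rw [hN]
          ring
  have b2R : (m : ℝ) * q ≤ N * r := by exact_mod_cast b2
  -- (3)
  have b3 : (q : ℝ) ^ 2 ≤ (4 * m) ^ r := by
    have h1 : (r : ℝ) ≤ 2 ^ r := by exact_mod_cast (Nat.lt_two_pow_self (n := r)).le
    have h2 : (2 * m : ℝ) ≤ (2 * m) ^ r := le_self_pow₀ (by linarith) hr0.ne'
    calc (q : ℝ) ^ 2 ≤ 2 * m * r := hqsq'
      _ ≤ (2 * m) ^ r * 2 ^ r := mul_le_mul h2 h1 hrR.le (by positivity)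
      _ = (4 * m) ^ r := by
          rw [← mul_pow]
          ring_nf
  have b4 : 2 * q * H ≤ (2 * w * H) * s := by
    have := mul_le_mul_of_nonneg_right b1 (show (0 : ℝ) ≤ 2 * H by positivity)
    linarith
  have b4' : (2 * q * H) ^ r ≤ (2 * w * H * s) ^ r := pow_le_pow_left₀ (by positivity) b4 _
  have b5 : (2 * q * H) ^ n ≤ (2 * w * H * s) ^ r := by
    refine le_trans ?_ b4'
    refine pow_le_pow_right₀ ?_ hnr
    nlinarith
  have b6 : H ^ (m * q) ≤ (H ^ N) ^ r := by
    rw [← pow_mul]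
    exact pow_le_pow_right₀ hH b2
  have b7 : C ^ 2 ≤ (C ^ 2) ^ r := le_self_pow₀ (one_le_pow₀ hC) hr0.ne'
  have b8 : bB C H m n q ≤ (K₁ * s) ^ r := by
    unfold bB
    have h1 : (2 * ((n * m : ℕ) : ℝ)) ≤ (4 * m) ^ r := by
      push_cast
      rw [← hqsq]
      exact b3
    calc C ^ 2 * (2 * ((n * m : ℕ) : ℝ)) * ((2 * q * H) ^ n * (H ^ (m * q) * H ^ (m * q))) ≤
        (C ^ 2) ^ r * (4 * m) ^ r * ((2 * w * H * s) ^ r * ((H ^ N) ^ r * (H ^ N) ^ r)) := by
          gcongr
      _ = (K₁ * s) ^ r := by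
          rw [hK₁, ← mul_pow, ← mul_pow, ← mul_pow, ← mul_pow]
          ring_nf
  have hbB0 : 0 ≤ bB C H m n q := by
    unfold bB
    positivity
  have b9 : H ^ (r + 2 * (m * q)) ≤ (H ^ (1 + 2 * N)) ^ r := by
    rw [← pow_mul]
    refine pow_le_pow_right₀ hH ?_
    have : 2 * (m * q) ≤ 2 * (N * r) := Nat.mul_le_mul_left 2 b2
    calc r + 2 * (m * q) ≤ r + 2 * (N * r) := by omega
      _ = (1 + 2 * N) * r := by ring
  have b10 : (r.factorial : ℝ) ≤ (s ^ 2) ^ r := by
    rw [hs2]
    exact_mod_cast Nat.factorial_le_pow r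
  have b11 : Real.exp (L * (m * q + m * r)) ≤ (Real.exp (L * (N + m))) ^ r := by
    rw [← Real.exp_nat_mul, Real.exp_le_exp]
    have h1 : (m : ℝ) * q + m * r ≤ (N + m) * r := by linarith
    calc L * (m * q + m * r) ≤ L * ((N + m) * r) := mul_le_mul_of_nonneg_left h1 hL
      _ = r * (L * (N + m)) := by ring
  have b12 : ((q : ℝ) / r) ^ (m * r) ≤ ((w / s) ^ m) ^ r := by
    rw [← pow_mul]
    refine pow_le_pow_left₀ (by positivity) ?_ _
    rw [div_le_div_iff₀ hrR hs0, ← hs2]
    calc (q : ℝ) * s ≤ (w * s) * s := mul_le_mul_of_nonneg_right b1 hs0.le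
      _ = w * s ^ 2 := by ring
  -- the two factors
  have f1 : H ^ (r + 2 * (m * q)) * (Λ ^ r * (r.factorial *
        (((q : ℝ) ^ 2 * bB C H m n q * Real.exp (L * (m * q + m * r))) *
          ((q : ℝ) / r) ^ (m * r)))) ≤ (K₂ * s ^ 3 / s ^ m) ^ r := by
    calc H ^ (r + 2 * (m * q)) * (Λ ^ r * (r.factorial *
        (((q : ℝ) ^ 2 * bB C H m n q * Real.exp (L * (m * q + m * r))) *
          ((q : ℝ) / r) ^ (m * r)))) ≤
        (H ^ (1 + 2 * N)) ^ r * (Λ ^ r * ((s ^ 2) ^ r *
        (((4 * m) ^ r * (K₁ * s) ^ r * (Real.exp (L * (N + m))) ^ r) *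
          ((w / s) ^ m) ^ r))) := by
          gcongr
      _ = (K₂ * s ^ 3 / s ^ m) ^ r := by
          rw [← mul_pow, ← mul_pow, ← mul_pow, ← mul_pow, ← mul_pow, ← mul_pow, hK₂, div_pow]
          congr 1
          field_simp
  have f2 : (q : ℝ) ^ 2 * (((2 * q * H) ^ r * (H ^ (m * q) * H ^ (m * q))) * bB C H m n q) ≤
      (K₃ * s ^ 2) ^ r := by
    calc (q : ℝ) ^ 2 * (((2 * q * H) ^ r * (H ^ (m * q) * H ^ (m * q))) * bB C H m n q) ≤
        (4 * m) ^ r * (((2 * w * H * s) ^ r * ((H ^ N) ^ r * (H ^ N) ^ r)) * (K₁ * s) ^ r) := by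
          gcongr
      _ = (K₃ * s ^ 2) ^ r := by
          rw [← mul_pow, ← mul_pow, ← mul_pow, ← mul_pow, hK₃]
          ring_nf
  have f3 : 1 ≤ (K₂ * s ^ 3 / s ^ m * (K₃ * s ^ 2) ^ e) ^ r := by
    refine hmain.trans ?_
    rw [mul_pow (K₂ * s ^ 3 / s ^ m)]
    refine mul_le_mul f1 ?_ (by positivity) (by positivity)
    have e1 : ((K₃ * s ^ 2) ^ e) ^ r = ((K₃ * s ^ 2) ^ r) ^ e := pow_right_comm _ _ _
    rw [e1]
    exact pow_le_pow_left₀ (by positivity) f2 _
  have f4 : 1 ≤ K₂ * s ^ 3 / s ^ m * (K₃ * s ^ 2) ^ e := by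
    by_contra hcon
    push Not at hcon
    exact absurd f3 (not_le.mpr (pow_lt_one₀ (by positivity) hcon hr0.ne'))
  have f5 : s ≤ K₂ * K₃ ^ e := by
    have h1 : K₂ * s ^ 3 / s ^ m * (K₃ * s ^ 2) ^ e = (K₂ * K₃ ^ e) / s := by
      rw [hm, mul_pow, ← pow_mul]
      have h2 : s ^ (2 * e + 4) = s ^ (2 * e) * s ^ 3 * s := by ring
      rw [h2]
      field_simp
    rw [h1, le_div_iff₀ hs0, one_mul] at f4
    exact f4
  rw [← hs2]
  exact pow_le_pow_left₀ hs0.le f5 2

variable {K : Type} [Field K] [NumberField K]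

/-- there is no counterexample -/
theorem Dat.false (D : Dat K) : False := by
  obtain ⟨C, H, Λ, L, hC, hH, hΛ, hL, h⟩ := D.exists_ineq
  set e := Module.finrank ℚ K - 1 with he
  obtain ⟨R, hR⟩ := final_bound hC hH hΛ hL e (2 * e + 4) rfl
  obtain ⟨t, ht⟩ := exists_nat_gt R
  set m := 2 * e + 4 with hm
  have hm0 : 0 < m := by omega
  obtain ⟨r, hr, hineq⟩ := h m (2 * m * (t + 1) ^ 2) (2 * m * (t + 1)) hm0 (by positivity) (by ring)
  have h1 := hR _ _ r (by positivity) (by ring) hr hineq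
  have h2 : t + 1 ≤ r := by
    refine le_trans ?_ hr
    calc t + 1 = 1 * (t + 1) ^ 1 := by ring
      _ ≤ (2 * m) * (t + 1) ^ 2 := Nat.mul_le_mul (by omega) (Nat.pow_le_pow_right (by omega)
        (by omega))
  have h3 : ((t : ℝ) + 1) ≤ r := by exact_mod_cast h2
  linarith

/-- **The theorem of Gelfond and Schneider**: `l ≠ 0`, `exp l` and `β` algebraic, `β` irrational;
then `exp (β l)` is transcendental. -/
theorem transcendental_exp_mul {l β : ℂ} (hl : l ≠ 0) (hα : IsAlgebraic ℚ (Complex.exp l))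
    (hβ : IsAlgebraic ℚ β) (hirr : ∀ r : ℚ, (r : ℂ) ≠ β) :
    Transcendental ℚ (Complex.exp (β * l)) := by
  intro hγ
  set S : Set ℂ := {Complex.exp l, β, Complex.exp (β * l)} with hS
  have hfin : FiniteDimensional ℚ (IntermediateField.adjoin ℚ S) := by
    refine IntermediateField.finiteDimensional_adjoin fun x hx => ?_
    rcases hx with h | h | h
    · rw [h]
      exact hα.isIntegral
    · rw [h]
      exact hβ.isIntegral
    · rw [h]
      exact hγ.isIntegral
  have hnf : NumberField (IntermediateField.adjoin ℚ S) := ⟨⟩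
  have m1 : Complex.exp l ∈ IntermediateField.adjoin ℚ S :=
    IntermediateField.subset_adjoin ℚ S (by simp [hS])
  have m2 : β ∈ IntermediateField.adjoin ℚ S :=
    IntermediateField.subset_adjoin ℚ S (by simp [hS])
  have m3 : Complex.exp (β * l) ∈ IntermediateField.adjoin ℚ S :=
    IntermediateField.subset_adjoin ℚ S (by simp [hS])
  exact Dat.false (K := IntermediateField.adjoin ℚ S)
    { σ := algebraMap _ ℂ
      α := ⟨_, m1⟩
      β := ⟨_, m2⟩
      γ := ⟨_, m3⟩
      l := l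
      hl := hl
      hα := rfl
      hγ := rfl
      hβ := fun r h => hirr r (by
        have := congrArg (algebraMap (IntermediateField.adjoin ℚ S) ℂ) h
        simpa using this) }

/-- **Hilbert's seventh problem**: `α ≠ 0, 1` algebraic, `β` algebraic and irrational; then
`α ^ β` is transcendental. -/
theorem gelfond_schneider {α β : ℂ} (hα : IsAlgebraic ℚ α) (hβ : IsAlgebraic ℚ β) (h0 : α ≠ 0)
    (h1 : α ≠ 1) (hirr : ∀ r : ℚ, (r : ℂ) ≠ β) : Transcendental ℚ (α ^ β) := by
  rw [Complex.cpow_def_of_ne_zero h0, mul_comm]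
  refine transcendental_exp_mul ?_ ?_ hβ hirr
  · intro h
    apply h1
    rw [← Complex.exp_log h0, h, Complex.exp_zero]
  · rw [Complex.exp_log h0]
    exact hα

/-- the form with real numbers -/
theorem gelfond_schneider_real {a b : ℝ} (ha : IsAlgebraic ℚ a) (hb : IsAlgebraic ℚ b)
    (h0 : 0 < a) (h1 : a ≠ 1) (hirr : Irrational b) : Transcendental ℚ (a ^ b) := by
  have h2 := gelfond_schneider (α := (a : ℂ)) (β := (b : ℂ))
    (ha.algebraMap (A := ℂ)) (hb.algebraMap (A := ℂ)) (by exact_mod_cast h0.ne')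
    (by exact_mod_cast h1) (fun r h => hirr ⟨r, by exact_mod_cast h⟩)
  rw [← Complex.ofReal_cpow h0.le] at h2
  exact (transcendental_algebraMap_iff (A := ℂ) (RingHom.injective (algebraMap ℝ ℂ))).mp h2

theorem isAlgebraic_sqrt (n : ℕ) : IsAlgebraic ℚ (Real.sqrt n) := by
  refine IsAlgebraic.of_pow two_pos ?_
  rw [Real.sq_sqrt (Nat.cast_nonneg n)]
  exact isAlgebraic_natCast n

/-- `2 ^ √2` is transcendental -/
theorem transcendental_two_rpow_sqrt_two : Transcendental ℚ ((2 : ℝ) ^ Real.sqrt 2) :=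
  gelfond_schneider_real (by exact_mod_cast isAlgebraic_natCast (R := ℚ) (A := ℝ) 2)
    (by exact_mod_cast isAlgebraic_sqrt 2) two_pos (by norm_num) irrational_sqrt_two

/-- `√2 ^ √2` is transcendental -/
theorem transcendental_sqrt_two_rpow_sqrt_two :
    Transcendental ℚ (Real.sqrt 2 ^ Real.sqrt 2) :=
  gelfond_schneider_real (by exact_mod_cast isAlgebraic_sqrt 2)
    (by exact_mod_cast isAlgebraic_sqrt 2) (Real.sqrt_pos.mpr two_pos) (by
      intro h
      have := Real.sq_sqrt (show (0 : ℝ) ≤ 2 by norm_num)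
      rw [h] at this
      norm_num at this) irrational_sqrt_two

/-- `exp (π b)` is transcendental for every algebraic real number `b ≠ 0` -/
theorem transcendental_exp_pi_mul {b : ℝ} (hb : IsAlgebraic ℚ b) (h0 : b ≠ 0) :
    Transcendental ℚ (Real.exp (Real.pi * b)) := by
  have hI : IsAlgebraic ℚ Complex.I := by
    refine IsAlgebraic.of_pow two_pos ?_
    rw [Complex.I_sq]
    exact_mod_cast isAlgebraic_intCast (R := ℚ) (A := ℂ) (-1)
  have h1 := transcendental_exp_mul (l := Real.pi * Complex.I) (β := -(b * Complex.I))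
    (mul_ne_zero (by exact_mod_cast Real.pi_ne_zero) Complex.I_ne_zero)
    (by
      rw [Complex.exp_pi_mul_I]
      exact_mod_cast isAlgebraic_intCast (R := ℚ) (A := ℂ) (-1))
    ((hb.algebraMap (A := ℂ)).mul hI).neg
    (fun r h => by
      have h2 := congrArg Complex.im h
      simp at h2
      exact h0 h2)
  have h2 : -((b : ℂ) * Complex.I) * (Real.pi * Complex.I) = ((Real.pi * b : ℝ) : ℂ) := by
    push_cast
    linear_combination (-(b : ℂ) * Real.pi) * Complex.I_mul_I
  rw [h2, ← Complex.ofReal_exp] at h1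
  exact (transcendental_algebraMap_iff (A := ℂ) (RingHom.injective (algebraMap ℝ ℂ))).mp h1

/-- Gelfond's constant `e ^ π` is transcendental -/
theorem transcendental_exp_pi : Transcendental ℚ (Real.exp Real.pi) := by
  simpa using transcendental_exp_pi_mul (b := 1) (by exact_mod_cast isAlgebraic_one) one_ne_zero

/-- `e ^ (π √n)` is transcendental for every natural number `n ≥ 1` (for instance `n = 163`) -/
theorem transcendental_exp_pi_mul_sqrt {n : ℕ} (hn : n ≠ 0) :
    Transcendental ℚ (Real.exp (Real.pi * Real.sqrt n)) :=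
  transcendental_exp_pi_mul (isAlgebraic_sqrt n) (by positivity)

/-- logarithms of algebraic numbers: a quotient is rational or transcendental -/
theorem transcendental_div {l₁ l₂ : ℂ} (h₁ : IsAlgebraic ℚ (Complex.exp l₁))
    (h₂ : IsAlgebraic ℚ (Complex.exp l₂)) (h0 : l₂ ≠ 0) (hirr : ∀ r : ℚ, (r : ℂ) ≠ l₁ / l₂) :
    Transcendental ℚ (l₁ / l₂) := by
  intro h
  have h3 := transcendental_exp_mul h0 h₂ h hirr
  rw [div_mul_cancel₀ _ h0] at h3
  exact h3 h₁

/-- if logarithms `l₁`, `l₂` of algebraic numbers are linearly independent over `ℚ` then they are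
linearly independent over the algebraic numbers -/
theorem linearIndependent_of_rat {l₁ l₂ : ℂ} (h₁ : IsAlgebraic ℚ (Complex.exp l₁))
    (h₂ : IsAlgebraic ℚ (Complex.exp l₂)) (h : LinearIndependent ℚ ![l₁, l₂]) :
    LinearIndependent (algebraicClosure ℚ ℂ) ![l₁, l₂] := by
  have h0 : l₂ ≠ 0 := h.ne_zero 1
  rw [LinearIndependent.pair_iff]
  intro s t hst
  have hst' : (s : ℂ) * l₁ + (t : ℂ) * l₂ = 0 := hst
  by_cases hs : s = 0
  · refine ⟨hs, ?_⟩
    rw [hs] at hst'
    have h2 : (t : ℂ) * l₂ = 0 := by simpa using hst'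
    rcases mul_eq_zero.mp h2 with h3 | h3
    · exact_mod_cast h3
    · exact absurd h3 h0
  · exfalso
    have hs' : (s : ℂ) ≠ 0 := by exact_mod_cast hs
    have h2 : l₁ / l₂ = ((-(t / s) : algebraicClosure ℚ ℂ) : ℂ) := by
      push_cast
      rw [div_eq_iff h0]
      field_simp
      linear_combination hst'
    have h3 : IsAlgebraic ℚ (l₁ / l₂) := by
      rw [h2]
      exact mem_algebraicClosure_iff.mp (SetLike.coe_mem _)
    refine transcendental_div h₁ h₂ h0 ?_ h3
    intro r hr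
    rw [LinearIndependent.pair_iff] at h
    have h4 := (h 1 (-r) (by
      rw [one_smul, neg_smul, Rat.smul_def, hr, div_mul_cancel₀ _ h0, add_neg_cancel])).1
    exact one_ne_zero h4

/-- `a, b ≥ 2` natural numbers which are not powers of one number: `log b / log a` is
transcendental (for instance the decimal logarithm of `2`) -/
theorem transcendental_logb {a b : ℕ} (ha : 2 ≤ a) (hb : 2 ≤ b)
    (h : ∀ m n : ℕ, m ≠ 0 → a ^ n ≠ b ^ m) : Transcendental ℚ (Real.logb a b) := by
  have ha0 : (1 : ℝ) < a := by exact_mod_cast ha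
  have hb0 : (1 : ℝ) < b := by exact_mod_cast hb
  have hla : 0 < Real.log a := Real.log_pos ha0
  have hlb : 0 < Real.log b := Real.log_pos hb0
  have e1 : ∀ c : ℕ, 2 ≤ c → Complex.exp ((Real.log c : ℝ) : ℂ) = (c : ℂ) := by
    intro c hc
    rw [← Complex.ofReal_exp, Real.exp_log (by positivity)]
    push_cast
    rfl
  have h1 := transcendental_div (l₁ := ((Real.log b : ℝ) : ℂ)) (l₂ := ((Real.log a : ℝ) : ℂ))
    (by rw [e1 b hb]; exact isAlgebraic_natCast b) (by rw [e1 a ha]; exact isAlgebraic_natCast a)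
    (by exact_mod_cast hla.ne') (by
      intro r hr
      have h2 : (r : ℝ) = Real.log b / Real.log a := by exact_mod_cast hr
      have hr0 : 0 < r := by
        have : (0 : ℝ) < r := by
          rw [h2]
          positivity
        exact_mod_cast this
      have h3 : (r.num.natAbs : ℝ) * Real.log a = r.den * Real.log b := by
        have h4 : ((r.num.natAbs : ℕ) : ℝ) = r * r.den := by
          have h5 : (r : ℝ) = r.num / r.den := by exact_mod_cast (Rat.num_div_den r).symm
          have h6 : ((r.num.natAbs : ℕ) : ℝ) = (r.num : ℝ) := by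
            rw [Nat.cast_natAbs, abs_of_nonneg (Rat.num_nonneg.mpr hr0.le)]
          rw [h6, h5]
          field_simp
        rw [h4, h2]
        field_simp
      have h4 : Real.log ((a : ℝ) ^ r.num.natAbs) = Real.log ((b : ℝ) ^ r.den) := by
        rw [Real.log_pow, Real.log_pow, h3]
      have h5 : (a : ℝ) ^ r.num.natAbs = (b : ℝ) ^ r.den :=
        Real.log_injOn_pos (by simp; positivity) (by simp; positivity) h4
      exact h r.den r.num.natAbs r.den_ne_zero (by exact_mod_cast h5))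
  rw [← Complex.ofReal_div] at h1
  exact (transcendental_algebraMap_iff (A := ℂ) (RingHom.injective (algebraMap ℝ ℂ))).mp h1

/-- the decimal logarithm of `2` is transcendental -/
theorem transcendental_logb_ten_two : Transcendental ℚ (Real.logb 10 2) := by
  have h := transcendental_logb (a := 10) (b := 2) (by norm_num) (by norm_num) (fun m n hm h => by
    rcases Nat.eq_zero_or_pos n with hn | hn
    · rw [hn, pow_zero] at h
      have : 1 < 2 ^ m := Nat.one_lt_two_pow hm
      omega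
    · have h5 : 5 ∣ 2 ^ m := by
        rw [← h]
        exact dvd_pow (by norm_num) hn.ne'
      have := (Nat.Prime.dvd_of_dvd_pow (by norm_num) h5)
      omega)
  exact_mod_cast h

/-- `i ^ i` is transcendental -/
theorem transcendental_I_cpow_I : Transcendental ℚ (Complex.I ^ Complex.I) := by
  have hI : IsAlgebraic ℚ Complex.I := by
    refine IsAlgebraic.of_pow two_pos ?_
    rw [Complex.I_sq]
    exact_mod_cast isAlgebraic_intCast (R := ℚ) (A := ℂ) (-1)
  refine gelfond_schneider hI hI Complex.I_ne_zero ?_ ?_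
  · intro h
    have := congrArg Complex.im h
    simp at this
  · intro r h
    have := congrArg Complex.im h
    simp at this

end Fermat.Agent.Cor.GS
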