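import Mathlib

/-!
# The theorem of Gelfond and Schneider: the auxiliary function (arithmetic)
-/

set_option autoImplicit false

open Finset NumberField

namespace Fermat.Agent.Cor.GS

/-- Siegel's lemma, twice as many unknowns as equations -/
theorem exists_siegel (K : Type) [Field K] [NumberField K] :
    ∃ C : ℝ, 1 ≤ C ∧ ∀ (ι κ : Type) [Fintype ι] [Fintype κ] (N : ℕ), 0 < N →
      Fintype.card ι = N → Fintype.card κ = 2 * N → ∀ (a : Matrix ι κ (𝓞 K)) (A : ℝ), 1 ≤ A →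
      (∀ i j, house (a i j : K) ≤ A) → ∃ ξ : κ → 𝓞 K, ξ ≠ 0 ∧ (∀ i, ∑ j, a i j * ξ j = 0) ∧
        ∀ j, house (ξ j : K) ≤ C ^ 2 * (2 * N) * A := by
  classical
  have key : ∃ c : ℝ, ∀ (ι κ : Type) [Fintype ι] [Fintype κ] (p q : ℕ), 0 < p → p < q →
      Fintype.card ι = p → Fintype.card κ = q → ∀ (a : Matrix ι κ (𝓞 K)), a ≠ 0 → ∀ A : ℝ,
      (∀ k l, house (algebraMap (𝓞 K) K (a k l)) ≤ A) →
      ∃ ξ : κ → 𝓞 K, ξ ≠ 0 ∧ a.mulVec ξ = 0 ∧
        ∀ l, house (ξ l).1 ≤ c * ((c * q * A) ^ ((p : ℝ) / (q - p))) :=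
    ⟨_, fun ι κ _ _ p q h0p hpq hι hκ a ha A habs =>
      NumberField.house.exists_ne_zero_int_vec_house_le K a ha h0p hpq hκ habs hι⟩
  obtain ⟨c, hc⟩ := key
  refine ⟨max 1 |c|, le_max_left _ _, ?_⟩
  intro ι κ _ _ N hN hι hκ a A hA1 hA
  by_cases ha : a = 0
  · refine ⟨fun _ => 1, ?_, ?_, ?_⟩
    · intro h
      have : 0 < Fintype.card κ := by omega
      obtain ⟨k⟩ := Fintype.card_pos_iff.mp this
      exact one_ne_zero (congrFun h k)
    · intro i
      simp [ha]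
    · intro j
      have h1 : house (((1 : 𝓞 K)) : K) = 1 := by
        have := house_intCast (K := K) 1
        simpa using this
      rw [h1]
      have h2 : (1 : ℝ) ≤ (max 1 |c|) ^ 2 := one_le_pow₀ (le_max_left _ _)
      have h3 : (1 : ℝ) ≤ 2 * N := by
        have : (1 : ℝ) ≤ N := by exact_mod_cast hN
        linarith
      have h4 : (1 : ℝ) ≤ (max 1 |c|) ^ 2 * (2 * N) := one_le_mul_of_one_le_of_one_le h2 h3
      exact one_le_mul_of_one_le_of_one_le h4 hA1
  · obtain ⟨ξ, h1, h2, h3⟩ := hc ι κ N (2 * N) hN (by omega) hι hκ a ha A hA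
    refine ⟨ξ, h1, fun i => congrFun h2 i, fun j => ?_⟩
    have hexp : ((N : ℕ) : ℝ) / (((2 * N : ℕ) : ℝ) - (N : ℕ)) = 1 := by
      have : (N : ℝ) ≠ 0 := Nat.cast_ne_zero.mpr hN.ne'
      push_cast
      field_simp
      ring
    have h4 := h3 j
    rw [hexp, Real.rpow_one] at h4
    refine h4.trans ?_
    have h5 : c ^ 2 ≤ (max 1 |c|) ^ 2 := by
      rw [← sq_abs]
      exact pow_le_pow_left₀ (abs_nonneg _) (le_max_right _ _) _
    have h6 : (0 : ℝ) ≤ 2 * N * A := by positivity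
    calc c * (c * ((2 * N : ℕ) : ℝ) * A) = c ^ 2 * (2 * N * A) := by
          push_cast
          ring
      _ ≤ (max 1 |c|) ^ 2 * (2 * N * A) := mul_le_mul_of_nonneg_right h5 h6
      _ = (max 1 |c|) ^ 2 * (2 * N) * A := by ring

/-- Vandermonde -/
theorem eq_zero_of_sum_pow {F ι : Type*} [Field F] [Fintype ι] {ω c : ι → F}
    (hω : Function.Injective ω) (h : ∀ k : ℕ, ∑ i, c i * ω i ^ k = 0) (i : ι) : c i = 0 := by
  classical
  have h1 : ∀ p : Polynomial F, ∑ i, c i * p.eval (ω i) = 0 := by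
    intro p
    have h2 : ∀ i, c i * p.eval (ω i) =
        ∑ k ∈ range (p.natDegree + 1), p.coeff k * (c i * ω i ^ k) := by
      intro i
      rw [Polynomial.eval_eq_sum_range, mul_sum]
      refine sum_congr rfl fun k _ => ?_
      ring
    rw [sum_congr rfl fun i _ => h2 i, sum_comm]
    refine sum_eq_zero fun k _ => ?_
    rw [← mul_sum, h k, mul_zero]
  have h2 := h1 (∏ j ∈ univ.erase i, (Polynomial.X - Polynomial.C (ω j)))
  rw [sum_eq_single i] at h2
  · rcases mul_eq_zero.mp h2 with h3 | h3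
    · exact h3
    · exfalso
      rw [Polynomial.eval_prod, prod_eq_zero_iff] at h3
      obtain ⟨j, hj, hj'⟩ := h3
      rw [Polynomial.eval_sub, Polynomial.eval_X, Polynomial.eval_C, sub_eq_zero] at hj'
      exact (mem_erase.mp hj).1 (hω hj').symm
  · intro j _ hj
    rw [Polynomial.eval_prod, prod_eq_zero (mem_erase.mpr ⟨hj, mem_univ j⟩), mul_zero]
    simp
  · intro h3
    exact absurd (mem_univ i) h3

end Fermat.Agent.Cor.GS
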